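/-
S16 / (U)-NORMP (helper51): restriction of a level-one form to `Γ₀(p)` and its conjugates.
-/
import Fermat.Agent.S16.Conj53.Expansion

set_option autoImplicit false

open UpperHalfPlane ModularForm CongruenceSubgroup ModularGroup Function
open scoped MatrixGroups ModularForm Manifold

namespace Fermat.Agent.S16.NormP51

open Fermat.Agent.S16.Conj53

variable {p : ℕ} {k : ℤ}

theorem map_Gamma0_le : ((Gamma0 p : Subgroup SL(2, ℤ)) : Subgroup (GL (Fin 2) ℝ)) ≤ 𝒮ℒ := by
  rintro _ ⟨γ, -, rfl⟩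
  exact ⟨γ, rfl⟩

/-- A level-one modular form, viewed as a form on `Γ₀(p)`. -/
noncomputable def resLevel (p : ℕ) (F : ModularForm 𝒮ℒ k) : ModularForm (Gamma0 p) k where
  toFun := F
  slash_action_eq' γ hγ := F.slash_action_eq' γ (map_Gamma0_le hγ)
  holo' := F.holo'
  bdd_at_cusps' hc := F.bdd_at_cusps' (hc.mono map_Gamma0_le)

@[simp] theorem resLevel_apply (F : ModularForm 𝒮ℒ k) (τ : ℍ) : resLevel p F τ = F τ := rfl

theorem coe_resLevel (F : ModularForm 𝒮ℒ k) : (resLevel p F : ℍ → ℂ) = F := rfl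

theorem slash_levelOne (F : ModularForm 𝒮ℒ k) (γ : SL(2, ℤ)) : (F : ℍ → ℂ) ∣[k] γ = F := by
  rw [SL_slash]
  exact F.slash_action_eq' _ ⟨γ, rfl⟩

theorem gS_resLevel (F : ModularForm 𝒮ℒ k) : gS (resLevel p F) = F := by
  unfold gS
  rw [coe_resLevel, slash_levelOne]

theorem tr_resLevel (F : ModularForm 𝒮ℒ k) (n : ℤ) : tr (resLevel p F) n = F := by
  unfold tr
  rw [gS_resLevel, slash_levelOne]

theorem conj_resLevel [Fact p.Prime] (F : ModularForm 𝒮ℒ k) (a : Option (ZMod p)) :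
    conj (resLevel p F) a = F := by
  cases a with
  | none => rfl
  | some j => exact tr_resLevel F _

end Fermat.Agent.S16.NormP51
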