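/-
S16 / (U)-NORMP (helper51): the conjugates `Conj53.conj` are compatible with the algebra
operations on modular forms.
-/
import Fermat.Agent.S16.NormP51.Res

set_option autoImplicit false

open UpperHalfPlane ModularForm CongruenceSubgroup ModularGroup Function
open scoped MatrixGroups ModularForm Manifold

namespace Fermat.Agent.S16.NormP51

open Fermat.Agent.S16.Conj53

variable {p : ℕ} [hp : Fact p.Prime]

/-- Function-level version of `Conj53.conj`. -/
noncomputable def cjFun (k : ℤ) (F : ℍ → ℂ) : Option (ZMod p) → ℍ → ℂ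
  | none => F
  | some j => (F ∣[k] S) ∣[k] (T ^ ((j.val : ℕ) : ℤ))

theorem conj_eq_cjFun {k : ℤ} (f : ModularForm (Gamma0 p) k) (a : Option (ZMod p)) :
    conj f a = cjFun k (f : ℍ → ℂ) a := by
  cases a <;> rfl

theorem cjFun_add (k : ℤ) (F F' : ℍ → ℂ) (a : Option (ZMod p)) :
    cjFun k (F + F') a = cjFun k F a + cjFun k F' a := by
  cases a with
  | none => rfl
  | some j => simp only [cjFun, SlashAction.add_slash]

theorem cjFun_neg (k : ℤ) (F : ℍ → ℂ) (a : Option (ZMod p)) :
    cjFun k (-F) a = - cjFun k F a := by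
  cases a with
  | none => rfl
  | some j => simp only [cjFun, SlashAction.neg_slash]

theorem cjFun_sub (k : ℤ) (F F' : ℍ → ℂ) (a : Option (ZMod p)) :
    cjFun k (F - F') a = cjFun k F a - cjFun k F' a := by
  rw [sub_eq_add_neg, cjFun_add, cjFun_neg, ← sub_eq_add_neg]

theorem cjFun_smul (k : ℤ) (c : ℂ) (F : ℍ → ℂ) (a : Option (ZMod p)) :
    cjFun k (c • F) a = c • cjFun k F a := by
  cases a with
  | none => rfl
  | some j => simp only [cjFun, SL_smul_slash]

theorem cjFun_mul (k₁ k₂ : ℤ) (F F' : ℍ → ℂ) (a : Option (ZMod p)) :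
    cjFun (k₁ + k₂) (F * F') a = cjFun k₁ F a * cjFun k₂ F' a := by
  cases a with
  | none => rfl
  | some j => simp only [cjFun, mul_slash_SL2]

theorem cjFun_levelOne {k : ℤ} (F : ModularForm 𝒮ℒ k) (a : Option (ZMod p)) :
    cjFun k (F : ℍ → ℂ) a = F := by
  cases a with
  | none => rfl
  | some j => simp only [cjFun, slash_levelOne]

end Fermat.Agent.S16.NormP51
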