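/-
S16 / (U)-NORMP (helper51): transfer of `q^(1/p)`-expansions of the conjugates of a form on
`Γ₀(p)` to the `q`-expansion of the level-one forms `Conj53.esymmForm f i`.

Same statements as `Esymm74` (helper74), but for helper53's concrete family
`Conj53.conj f : Option (ZMod p) → ℍ → ℂ` (no coset enumeration).
-/
import Fermat.Agent.S16.Esymm74
import Fermat.Agent.S16.Conj53.Expansion

set_option autoImplicit false

open UpperHalfPlane ModularForm CongruenceSubgroup ModularGroup Function
open scoped MatrixGroups ModularForm Manifold

namespace Fermat.Agent.S16.NormP51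

open Fermat.Agent.S24.HasQExp Fermat.Agent.S16.Conj53 ModularFormClass

variable {p : ℕ} {k : ℤ} [hp : Fact p.Prime]

/-- If every conjugate of `f` is the sum of the power series `E a` at `q`, then the value of
`esymmForm f i` is the sum of the formal elementary symmetric function of the `E a`. -/
theorem psum_esymmForm (f : ModularForm (Gamma0 p) k) (E : Option (ZMod p) → PowerSeries ℂ)
    {q : ℂ} {τ : ℍ} (hE : ∀ a, PSum (E a) q (conj f a τ)) (i : ℕ) :
    PSum (((Finset.univ : Finset (Option (ZMod p))).val.map E).esymm i) q (esymmForm f i τ) := by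
  rw [Finset.esymm_map_val, esymmForm_apply, esymmConj, esymmFun, Finset.sum_apply]
  refine Esymm74.PSum.finset_sum _ fun S _ => ?_
  rw [Finset.prod_apply]
  exact Esymm74.PSum.finset_prod _ fun a _ => hE a

/-- **Transfer of expansions** for `Conj53.esymmForm`. -/
theorem coeff_esymm_eq (f : ModularForm (Gamma0 p) k) (E : Option (ZMod p) → PowerSeries ℂ)
    (hE : ∀ a (τ : ℍ), PSum (E a) (qN p τ) (conj f a τ)) (i m : ℕ) :
    PowerSeries.coeff m (((Finset.univ : Finset (Option (ZMod p))).val.map E).esymm i)
      = if p ∣ m then (qExpansion 1 (esymmForm f i)).coeff (m / p) else 0 := by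
  have hp0 : 0 < p := hp.out.pos
  have hp' : (0 : ℝ) < p := by exact_mod_cast hp0
  have h1 := ModularFormClass.qExpansion_coeff_unique (f := esymmForm f i)
    (c := fun m => PowerSeries.coeff m
      (((Finset.univ : Finset (Option (ZMod p))).val.map E).esymm i))
    hp' (Esymm74.natCast_mem_strictPeriods_SL p)
    (fun τ => by
      have := psum_esymmForm f E (fun a => hE a τ) i
      simpa [Fermat.Agent.S24.HasQExp.PSum, qN, smul_eq_mul] using this) m
  rw [h1]
  have h2 := UpperHalfPlane.qExpansion_coeff_nat_mul (h := 1) one_pos
    (F := esymmForm f i)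
    (SlashInvariantFormClass.periodic_comp_ofComplex (esymmForm f i)
      one_mem_strictPeriods_SL)
    (ModularFormClass.holo (esymmForm f i))
    (ModularFormClass.bdd_at_infty (esymmForm f i)) hp0 m
  rw [mul_one] at h2
  exact h2

/-- **Integral transfer + reduction** for `Conj53.esymmForm`: if the conjugates of `f` have
`q_p`-expansions `E' a` with coefficients in a subring `O ⊆ ℂ`, then there is `A : O⟦X⟧` whose
coefficients are the `q`-expansion coefficients of `esymmForm f i`, and for every ring
homomorphism `φ : O →+* R`, the formal elementary symmetric function of the reductions of the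
`E' a` is `φ(A)(X^p)`. -/
theorem exists_qExpansion_reduction (f : ModularForm (Gamma0 p) k) (O : Subring ℂ)
    (E' : Option (ZMod p) → PowerSeries O)
    (hE : ∀ a (τ : ℍ), PSum (PowerSeries.map O.subtype (E' a)) (qN p τ) (conj f a τ))
    (i : ℕ) :
    ∃ A : PowerSeries O,
      (∀ n, ((PowerSeries.coeff n A : O) : ℂ) = (qExpansion 1 (esymmForm f i)).coeff n) ∧
      ∀ {R : Type*} [CommRing R] (φ : O →+* R) (m : ℕ),
        PowerSeries.coeff m
            (((Finset.univ : Finset (Option (ZMod p))).val.map
              fun a => PowerSeries.map φ (E' a)).esymm i)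
          = if p ∣ m then φ (PowerSeries.coeff (m / p) A) else 0 := by
  have hp0 : 0 < p := hp.out.pos
  have key : ∀ m, ((PowerSeries.coeff m
      (((Finset.univ : Finset (Option (ZMod p))).val.map E').esymm i) : O) : ℂ)
      = if p ∣ m then (qExpansion 1 (esymmForm f i)).coeff (m / p) else 0 := by
    intro m
    have h := coeff_esymm_eq f (fun a => PowerSeries.map O.subtype (E' a)) hE i m
    rw [← h]
    have h2 : ((Finset.univ : Finset (Option (ZMod p))).val.map
        fun a => PowerSeries.map O.subtype (E' a))
        = (((Finset.univ : Finset (Option (ZMod p))).val.map E').map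
            (PowerSeries.map O.subtype)) := by
      rw [Multiset.map_map]; rfl
    rw [h2, ← Esymm74.map_multiset_esymm, PowerSeries.coeff_map]
    rfl
  have h0 : ∀ m, ¬ p ∣ m → PowerSeries.coeff m
      (((Finset.univ : Finset (Option (ZMod p))).val.map E').esymm i) = 0 := by
    intro m hm
    have := key m
    rw [if_neg hm] at this
    exact_mod_cast this
  refine ⟨PowerSeries.mk fun n =>
    PowerSeries.coeff (p * n) (((Finset.univ : Finset (Option (ZMod p))).val.map E').esymm i),
    fun n => ?_, fun {R} _ φ m => ?_⟩
  · rw [PowerSeries.coeff_mk, key (p * n), if_pos (dvd_mul_right p n),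
      Nat.mul_div_cancel_left n hp0]
  · have h2 : ((Finset.univ : Finset (Option (ZMod p))).val.map
        fun a => PowerSeries.map φ (E' a))
        = (((Finset.univ : Finset (Option (ZMod p))).val.map E').map (PowerSeries.map φ)) := by
      rw [Multiset.map_map]; rfl
    rw [h2, ← Esymm74.map_multiset_esymm, PowerSeries.coeff_map, PowerSeries.coeff_mk]
    split_ifs with hm
    · obtain ⟨c, rfl⟩ := hm
      rw [Nat.mul_div_cancel_left c hp0]
    · rw [h0 m hm, map_zero]

end Fermat.Agent.S16.NormP51
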