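/-
S16 / (U)-NORMP (helper51): the abstract NORM STEP.

If all `p + 1` conjugates of `f ∈ M_w(Γ₀(p))` (`0 ≤ w ≤ 11`) have `q^(1/p)`-expansions with
coefficients in a subring `O ⊆ ℂ` which are all congruent modulo `ℓ O` to one and the same series
`Q` of order `≥ p` in `q^(1/p)` whose `p`-th coefficient `u` satisfies `u^(p+1) ≠ 0 mod ℓ`, we get a
contradiction: the norm of `f` is a level-one form of weight `w (p+1)` which is `≡ (u q)^(p+1)`
modulo `ℓ`, against the integral Sturm bound `w (p+1) / 12 < p + 1`.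
-/
import Fermat.Agent.S16.NormP51.Transfer
import Fermat.Agent.S16.MillerSturm46

set_option autoImplicit false

open UpperHalfPlane ModularForm CongruenceSubgroup ModularGroup Function
open scoped MatrixGroups ModularForm Manifold

namespace Fermat.Agent.S16.NormP51

open Fermat.Agent.S24.HasQExp Fermat.Agent.S16.Conj53 ModularFormClass

/-- A power series whose coefficients below `p` vanish: coefficients of its `n`-th power. -/
theorem coeff_pow_of_low {R : Type*} [CommRing R] (Q : PowerSeries R) (p n : ℕ)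
    (hlow : ∀ m < p, PowerSeries.coeff m Q = 0) :
    (∀ m < p * n, PowerSeries.coeff m (Q ^ n) = 0) ∧
      PowerSeries.coeff (p * n) (Q ^ n) = (PowerSeries.coeff p Q) ^ n := by
  have hdvd : (PowerSeries.X : PowerSeries R) ^ p ∣ Q := PowerSeries.X_pow_dvd_iff.mpr hlow
  obtain ⟨U, hU⟩ := hdvd
  have hUc : PowerSeries.coeff p Q = PowerSeries.constantCoeff U := by
    rw [hU]
    have := PowerSeries.coeff_X_pow_mul U p 0
    rw [zero_add] at this
    rw [this, PowerSeries.coeff_zero_eq_constantCoeff]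
  have hpow : Q ^ n = PowerSeries.X ^ (p * n) * U ^ n := by
    rw [hU, mul_pow, ← pow_mul]
  refine ⟨fun m hm => ?_, ?_⟩
  · rw [hpow]
    exact PowerSeries.X_pow_dvd_iff.mp (Dvd.intro _ rfl) m hm
  · rw [hpow]
    have := PowerSeries.coeff_X_pow_mul (U ^ n) (p * n) 0
    rw [zero_add] at this
    rw [this, PowerSeries.coeff_zero_eq_constantCoeff, map_pow, hUc]

variable {p : ℕ} [hp : Fact p.Prime]

/-- **The norm step.** -/
theorem false_of_norm {w : ℤ} (hw0 : 0 ≤ w) (hw : w ≤ 11) (f : ModularForm (Gamma0 p) w)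
    (O : Subring ℂ) (ℓ : ℕ) (E' : Option (ZMod p) → PowerSeries O)
    (hE : ∀ a (τ : ℍ), PSum (PowerSeries.map O.subtype (E' a)) (qN p τ) (conj f a τ))
    (Qb : PowerSeries (O ⧸ Ideal.span {((ℓ : ℕ) : O)}))
    (hQ : ∀ a, PowerSeries.map (Ideal.Quotient.mk (Ideal.span {((ℓ : ℕ) : O)})) (E' a) = Qb)
    (hQlow : ∀ m < p, PowerSeries.coeff m Qb = 0)
    (hQp : (PowerSeries.coeff p Qb) ^ (p + 1) ≠ 0) : False := by
  classical
  set φ := Ideal.Quotient.mk (Ideal.span {((ℓ : ℕ) : O)}) with hφ
  obtain ⟨A, hA, hred⟩ := exists_qExpansion_reduction f O E' hE (p + 1)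
  -- the reduced symmetric function is `Qb ^ (p+1)`
  have hcard : Multiset.card ((Finset.univ : Finset (Option (ZMod p))).val.map
      fun a => PowerSeries.map φ (E' a)) = p + 1 := by
    rw [Multiset.card_map]
    show (Finset.univ : Finset (Option (ZMod p))).card = p + 1
    rw [Finset.card_univ, Fintype.card_option, ZMod.card]
  have hesymm : ((Finset.univ : Finset (Option (ZMod p))).val.map
      fun a => PowerSeries.map φ (E' a)).esymm (p + 1) = Qb ^ (p + 1) := by
    have h1 : ((Finset.univ : Finset (Option (ZMod p))).val.map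
        fun a => PowerSeries.map φ (E' a))
        = Multiset.replicate (p + 1) Qb := by
      rw [Multiset.eq_replicate]
      refine ⟨hcard, ?_⟩
      intro b hb
      obtain ⟨a, -, rfl⟩ := Multiset.mem_map.mp hb
      exact hQ a
    rw [h1]
    unfold Multiset.esymm
    have h2 : Multiset.powersetCard (p + 1) (Multiset.replicate (p + 1) Qb)
        = {Multiset.replicate (p + 1) Qb} := by
      have := Multiset.powersetCard_self (Multiset.replicate (p + 1) Qb)
      rwa [Multiset.card_replicate] at this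
    rw [h2]
    simp [pow_succ']
  obtain ⟨hlow, htop⟩ := coeff_pow_of_low Qb p (p + 1) hQlow
  -- reduction of the coefficients of `A`
  have hAn : ∀ n, φ (PowerSeries.coeff n A) = PowerSeries.coeff (p * n) (Qb ^ (p + 1)) := by
    intro n
    have := hred φ (p * n)
    rw [hesymm, if_pos (dvd_mul_right p n), Nat.mul_div_cancel_left n hp.out.pos] at this
    exact this.symm
  have hp0 : 0 < p := hp.out.pos
  -- small coefficients are divisible by `ℓ`
  have hsmall : ∀ n, n < p + 1 → ∃ x ∈ O,
      (qExpansion 1 (esymmForm f (p + 1))).coeff n = ((ℓ : ℤ) : ℂ) * x := by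
    intro n hn
    have h0 : φ (PowerSeries.coeff n A) = 0 := by
      rw [hAn n]
      exact hlow _ (Nat.mul_lt_mul_of_pos_left hn hp0)
    rw [hφ, Ideal.Quotient.eq_zero_iff_mem, Ideal.mem_span_singleton'] at h0
    obtain ⟨y, hy⟩ := h0
    refine ⟨(y : ℂ), y.2, ?_⟩
    rw [← hA n, ← hy]
    push_cast
    ring
  -- Sturm
  have hbound : (w * ((p + 1 : ℕ) : ℤ)).toNat / 12 < p + 1 := by
    have h1 : (w * ((p + 1 : ℕ) : ℤ)).toNat ≤ 11 * (p + 1) := by
      have : w * ((p + 1 : ℕ) : ℤ) ≤ ((11 * (p + 1) : ℕ) : ℤ) := by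
        push_cast
        nlinarith
      omega
    omega
  have hall := MillerSturm46.coeff_mem_smul O (ℓ : ℤ) (esymmForm f (p + 1))
    (fun n hn => hsmall n (lt_of_le_of_lt hn hbound)) (p + 1)
  obtain ⟨x, hx, hxe⟩ := hall
  -- hence the `(p+1)`-st coefficient of `A` is divisible by `ℓ`: contradiction
  have h1 : φ (PowerSeries.coeff (p + 1) A) = 0 := by
    rw [hφ, Ideal.Quotient.eq_zero_iff_mem, Ideal.mem_span_singleton']
    refine ⟨⟨x, hx⟩, ?_⟩
    apply Subtype.ext
    rw [← hA (p + 1)] at hxe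
    push_cast
    rw [hxe]
    push_cast
    ring
  rw [hAn (p + 1), htop] at h1
  exact hQp h1

end Fermat.Agent.S16.NormP51
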