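/-
S16 / (U)-NORMP (helper51): the ring of `ℓ`-integral algebraic numbers inside `ℂ`.
-/
import Mathlib

set_option autoImplicit false

namespace Fermat.Agent.S16.NormP51

/-- The subring of `ℂ` of `ℓ`-integral algebraic numbers: `x` such that `d * x` is an algebraic
integer for some natural number `d` prime to `ℓ`. -/
def lInt (ℓ : ℕ) [hℓ : Fact ℓ.Prime] : Subring ℂ where
  carrier := {x | ∃ d : ℕ, ¬ ℓ ∣ d ∧ IsIntegral ℤ ((d : ℂ) * x)}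
  zero_mem' := ⟨1, by simpa using hℓ.out.one_lt.ne', by simpa using isIntegral_zero⟩
  one_mem' := ⟨1, by simpa using hℓ.out.one_lt.ne', by simpa using isIntegral_one⟩
  add_mem' := by
    rintro x y ⟨d, hd, hx⟩ ⟨e, he, hy⟩
    refine ⟨d * e, fun h => (hℓ.out.dvd_mul.mp h).elim hd he, ?_⟩
    have : ((d * e : ℕ) : ℂ) * (x + y) = (e : ℂ) * ((d : ℂ) * x) + (d : ℂ) * ((e : ℂ) * y) := by
      push_cast; ring
    rw [this]
    have he' : IsIntegral ℤ ((e : ℂ)) := by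
      simpa using (isIntegral_algebraMap (R := ℤ) (A := ℂ) (x := (e : ℤ)))
    have hd' : IsIntegral ℤ ((d : ℂ)) := by
      simpa using (isIntegral_algebraMap (R := ℤ) (A := ℂ) (x := (d : ℤ)))
    exact (he'.mul hx).add (hd'.mul hy)
  neg_mem' := by
    rintro x ⟨d, hd, hx⟩
    refine ⟨d, hd, ?_⟩
    rw [mul_neg]
    exact hx.neg
  mul_mem' := by
    rintro x y ⟨d, hd, hx⟩ ⟨e, he, hy⟩
    refine ⟨d * e, fun h => (hℓ.out.dvd_mul.mp h).elim hd he, ?_⟩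
    have : ((d * e : ℕ) : ℂ) * (x * y) = ((d : ℂ) * x) * ((e : ℂ) * y) := by
      push_cast; ring
    rw [this]
    exact hx.mul hy

variable {ℓ : ℕ} [hℓ : Fact ℓ.Prime]

theorem mem_lInt_iff {x : ℂ} :
    x ∈ lInt ℓ ↔ ∃ d : ℕ, ¬ ℓ ∣ d ∧ IsIntegral ℤ ((d : ℂ) * x) := Iff.rfl

theorem mem_lInt_of_isIntegral {x : ℂ} (hx : IsIntegral ℤ x) : x ∈ lInt ℓ :=
  ⟨1, by simpa using hℓ.out.one_lt.ne', by simpa using hx⟩

theorem intCast_mem_lInt (m : ℤ) : (m : ℂ) ∈ lInt ℓ := intCast_mem (lInt ℓ) m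

/-- `m / d` with `ℓ ∤ d` lies in `lInt ℓ`. -/
theorem div_mem_lInt (m : ℤ) {d : ℕ} (hd : ¬ ℓ ∣ d) : (m : ℂ) / (d : ℂ) ∈ lInt ℓ := by
  have hd0 : (d : ℂ) ≠ 0 := by
    rintro h
    apply hd
    have : d = 0 := by exact_mod_cast h
    rw [this]; exact dvd_zero _
  refine ⟨d, hd, ?_⟩
  rw [mul_div_cancel₀ _ hd0]
  exact isIntegral_algebraMap (R := ℤ) (A := ℂ) (x := m)

theorem inv_natCast_mem_lInt {d : ℕ} (hd : ¬ ℓ ∣ d) : ((d : ℂ))⁻¹ ∈ lInt ℓ := by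
  have := div_mem_lInt (ℓ := ℓ) 1 hd
  simpa using this

/-- Roots of unity are `ℓ`-integral. -/
theorem mem_lInt_of_pow_eq_one {z : ℂ} {n : ℕ} (hn : 0 < n) (hz : z ^ n = 1) : z ∈ lInt ℓ :=
  mem_lInt_of_isIntegral (IsIntegral.of_pow hn (by rw [hz]; exact isIntegral_one))

/-- `ℓ` is not a unit of `lInt ℓ`: `1 ∉ ℓ • lInt ℓ`. -/
theorem natCast_mul_ne_one {y : ℂ} (hy : y ∈ lInt ℓ) : (ℓ : ℂ) * y ≠ 1 := by
  intro h
  obtain ⟨d, hd, hint⟩ := hy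
  have hℓ0 : (ℓ : ℂ) ≠ 0 := by exact_mod_cast hℓ.out.ne_zero
  have hy' : y = ((ℓ : ℂ))⁻¹ := by
    field_simp
    rw [mul_comm]; exact h
  have hq : (d : ℂ) * y = algebraMap ℚ ℂ ((d : ℚ) / (ℓ : ℚ)) := by
    rw [hy']; simp [div_eq_mul_inv]
  rw [hq, isIntegral_algebraMap_iff (algebraMap ℚ ℂ).injective] at hint
  obtain ⟨n, hn⟩ := IsIntegrallyClosed.isIntegral_iff.mp hint
  have hℓq : (ℓ : ℚ) ≠ 0 := by exact_mod_cast hℓ.out.ne_zero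
  have h2 : (d : ℚ) = (n : ℚ) * (ℓ : ℚ) := by
    have : (n : ℚ) = (d : ℚ) / (ℓ : ℚ) := by simpa using hn
    rw [this]; field_simp
  have h3 : (d : ℤ) = n * (ℓ : ℤ) := by exact_mod_cast h2
  apply hd
  have : (ℓ : ℤ) ∣ (d : ℤ) := ⟨n, by rw [h3]; ring⟩
  exact_mod_cast this

end Fermat.Agent.S16.NormP51
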