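/-
S16 / (U)-NORMP (helper51): spreading a power series `g(X) ↦ g(X^p)` coefficientwise, and
lifting complex power series with coefficients in a subring.
-/
import Fermat.Agent.S24.HasQExp

set_option autoImplicit false

namespace Fermat.Agent.S16.NormP51

open Fermat.Agent.S24.HasQExp

section Spread

variable {R : Type*} [Semiring R]

/-- `g(X^p)`, defined coefficientwise. -/
noncomputable def spread (p : ℕ) (g : PowerSeries R) : PowerSeries R :=
  PowerSeries.mk fun m => if p ∣ m then PowerSeries.coeff (m / p) g else 0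

theorem coeff_spread (p : ℕ) (g : PowerSeries R) (m : ℕ) :
    PowerSeries.coeff m (spread p g) = if p ∣ m then PowerSeries.coeff (m / p) g else 0 := by
  rw [spread, PowerSeries.coeff_mk]

theorem coeff_spread_mul {p : ℕ} (hp : 0 < p) (g : PowerSeries R) (n : ℕ) :
    PowerSeries.coeff (p * n) (spread p g) = PowerSeries.coeff n g := by
  rw [coeff_spread, if_pos (dvd_mul_right p n), Nat.mul_div_cancel_left n hp]

theorem coeff_spread_of_not_dvd {p : ℕ} (g : PowerSeries R) {m : ℕ} (hm : ¬ p ∣ m) :
    PowerSeries.coeff m (spread p g) = 0 := by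
  rw [coeff_spread, if_neg hm]

theorem coeff_spread_zero {p : ℕ} (g : PowerSeries R) :
    PowerSeries.coeff 0 (spread p g) = PowerSeries.coeff 0 g := by
  rw [coeff_spread, if_pos (dvd_zero p), Nat.zero_div]

theorem coeff_spread_self {p : ℕ} (hp : 0 < p) (g : PowerSeries R) :
    PowerSeries.coeff p (spread p g) = PowerSeries.coeff 1 g := by
  have := coeff_spread_mul hp g 1
  rwa [mul_one] at this

theorem coeff_spread_of_lt {p : ℕ} (g : PowerSeries R) {m : ℕ} (hm0 : 0 < m) (hm : m < p) :
    PowerSeries.coeff m (spread p g) = 0 :=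
  coeff_spread_of_not_dvd g fun h => absurd (Nat.le_of_dvd hm0 h) (not_le.mpr hm)

theorem map_spread {S : Type*} [Semiring S] (φ : R →+* S) (p : ℕ) (g : PowerSeries R) :
    PowerSeries.map φ (spread p g) = spread p (PowerSeries.map φ g) := by
  ext m
  rw [PowerSeries.coeff_map, coeff_spread, coeff_spread]
  split_ifs
  · rw [PowerSeries.coeff_map]
  · rw [map_zero]

end Spread

/-- If `g` sums to `t` at `x ^ p`, then `g(X^p)` sums to `t` at `x`. -/
theorem psum_spread {p : ℕ} (hp : 0 < p) {g : PowerSeries ℂ} {x t : ℂ}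
    (h : Fermat.Agent.S24.HasQExp.PSum g (x ^ p) t) :
    Fermat.Agent.S24.HasQExp.PSum (spread p g) x t := by
  unfold Fermat.Agent.S24.HasQExp.PSum at *
  have hinj : Function.Injective (fun n : ℕ => p * n) := fun a b hab =>
    Nat.eq_of_mul_eq_mul_left hp hab
  have h3 : ∀ m ∉ Set.range (fun n : ℕ => p * n),
      PowerSeries.coeff m (spread p g) * x ^ m = 0 := by
    intro m hm
    rw [coeff_spread_of_not_dvd, zero_mul]
    rintro ⟨c, rfl⟩
    exact hm ⟨c, rfl⟩
  refine (hinj.hasSum_iff h3).mp ?_
  convert h using 1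
  funext n
  simp only [Function.comp_apply]
  rw [coeff_spread_mul hp, pow_mul]

section Lift

variable (O : Subring ℂ)

/-- A complex power series with coefficients in `O`, as a power series over `O`. -/
noncomputable def liftO (E : PowerSeries ℂ) (h : ∀ m, PowerSeries.coeff m E ∈ O) :
    PowerSeries O :=
  PowerSeries.mk fun m => ⟨PowerSeries.coeff m E, h m⟩

@[simp] theorem map_subtype_liftO (E : PowerSeries ℂ) (h : ∀ m, PowerSeries.coeff m E ∈ O) :
    PowerSeries.map O.subtype (liftO O E h) = E := by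
  ext m
  rw [PowerSeries.coeff_map, liftO, PowerSeries.coeff_mk]
  rfl

theorem coeff_liftO (E : PowerSeries ℂ) (h : ∀ m, PowerSeries.coeff m E ∈ O) (m : ℕ) :
    ((PowerSeries.coeff m (liftO O E h) : O) : ℂ) = PowerSeries.coeff m E := by
  rw [liftO, PowerSeries.coeff_mk]

/-- A power series over a commutative ring which is coefficientwise `≡ 1 mod c`. -/
theorem exists_eq_one_add {A : Type*} [CommRing A] (E : PowerSeries A) (c : A)
    (h0 : ∃ y, PowerSeries.coeff 0 E = 1 + c * y)
    (h : ∀ m, 1 ≤ m → ∃ y, PowerSeries.coeff m E = c * y) :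
    ∃ u : PowerSeries A, E = 1 + PowerSeries.C c * u := by
  classical
  obtain ⟨y0, hy0⟩ := h0
  choose! y hy using h
  refine ⟨PowerSeries.mk fun m => if m = 0 then y0 else y m, ?_⟩
  ext m
  rw [map_add, PowerSeries.coeff_C_mul, PowerSeries.coeff_mk, PowerSeries.coeff_one]
  by_cases hm : m = 0
  · subst hm
    simp [hy0]
  · rw [if_neg hm, if_neg hm, zero_add]
    exact hy m (Nat.one_le_iff_ne_zero.mpr hm)

end Lift

end Fermat.Agent.S16.NormP51
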