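/-
S16 / (U)-NORMP (helper51): the `q^(1/p)`-expansions of the conjugates of a weight-2 form
`G ≡ 1 mod ℓ^b` on `Γ₀(p)` (with `ℓ^b ∣ p + 1`), as power series over `O = lInt ℓ`, all of the shape
`1 + ℓ^b u`.
-/
import Fermat.Agent.S16.NormP51.Spread
import Fermat.Agent.S16.NormP51.LInt
import Fermat.Agent.S16.NormP51.ConjAlg
import Fermat.Agent.S16.UIface39
import Fermat.Prelude.Thm_CongruenceSubgroup_one_mem_strictPeriods_Gamma0

set_option autoImplicit false

open UpperHalfPlane ModularForm CongruenceSubgroup ModularGroup Function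
open scoped MatrixGroups ModularForm Manifold

namespace Fermat.Agent.S16.NormP51

open Fermat.Agent.S24.HasQExp Fermat.Agent.S16.Conj53 ModularFormClass
open Fermat.Agent.S16.UIface39

/-- helper53's (C4): the `q^(1/p)`-coefficients of `G ∣ S` for `G` of weight `2` on `Γ₀(p)`
(consequence of `M₂(SL₂(ℤ)) = 0`, i.e. `G ∣ W_p = - U_p G`). -/
def C4Stmt : Prop :=
  ∀ (p : ℕ) [Fact p.Prime] (G : ModularForm (Gamma0 p) 2) (m : ℕ),
    bS G m = -(1 / (p : ℂ)) * (qExpansion 1 G).coeff (p * m)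

variable {p : ℕ} [hp : Fact p.Prime] (G : ModularForm (Gamma0 p) 2)

/-- The expansions in `q_p = e^{2πiτ/p}` of the conjugates of `G`. -/
noncomputable def EG : Option (ZMod p) → PowerSeries ℂ
  | none => spread p (qExpansion 1 G)
  | some j => PowerSeries.mk fun m => bS G m * (zeta p ^ ((j.val : ℕ) : ℤ)) ^ m

theorem psum_EG (a : Option (ZMod p)) (τ : ℍ) :
    Fermat.Agent.S24.HasQExp.PSum (EG G a) (qN p τ) (conj G a τ) := by
  have : NeZero p := ⟨hp.out.ne_zero⟩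
  cases a with
  | none =>
    refine psum_spread hp.out.pos ?_
    have h1 := ModularForm.hasSum_qExpansion (f := G) one_pos
      (CongruenceSubgroup.one_mem_strictPeriods_Gamma0 p) τ
    have h2 : qN p τ ^ p = Periodic.qParam 1 τ := qParam_p_pow_p τ
    rw [h2]
    exact h1
  | some j =>
    have h := hasSum_tr G ((j.val : ℕ) : ℤ) τ
    unfold Fermat.Agent.S24.HasQExp.PSum
    show HasSum _ (tr G ((j.val : ℕ) : ℤ) τ)
    convert h using 1
    funext m
    simp only [EG, PowerSeries.coeff_mk]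
    rfl

variable {ℓ : ℕ} [hℓ : Fact ℓ.Prime]

/-- `x ∈ ℓ^b ℤ_(ℓ)` implies `x = ℓ^b y` with `y` an `ℓ`-integral algebraic number. -/
theorem exists_of_inPow {b : ℕ} {x : ℂ} (h : InPow ℓ b x) :
    ∃ y ∈ lInt ℓ, x = (ℓ : ℂ) ^ b * y := by
  obtain ⟨m, d, hd, hx⟩ := h
  have hd0 : (d : ℂ) ≠ 0 := by
    rintro h0
    apply hd
    have : d = 0 := by exact_mod_cast h0
    rw [this]; exact dvd_zero _
  refine ⟨(m : ℂ) / (d : ℂ), div_mem_lInt m hd, ?_⟩
  field_simp
  exact hx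

theorem natCast_pow_mem (b : ℕ) : ((ℓ : ℂ)) ^ b ∈ lInt ℓ :=
  (lInt ℓ).pow_mem (natCast_mem _ ℓ) b

theorem mem_of_inPow {b : ℕ} {x : ℂ} (h : InPow ℓ b x) : x ∈ lInt ℓ := by
  obtain ⟨y, hy, rfl⟩ := exists_of_inPow h
  exact (lInt ℓ).mul_mem (natCast_pow_mem b) hy

theorem zeta_pow_mem (n : ℤ) (m : ℕ) : (zeta p ^ n) ^ m ∈ lInt ℓ := by
  have : NeZero p := ⟨hp.out.ne_zero⟩
  refine mem_lInt_of_pow_eq_one hp.out.pos (n := p) ?_
  have h1 : (zeta p ^ n) ^ p = 1 := by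
    rw [← zpow_natCast, ← zpow_mul, mul_comm, zpow_mul, zpow_natCast, zeta_pow_p, one_zpow]
  rw [← pow_mul, mul_comm, pow_mul, h1, one_pow]

theorem inv_p_mem (hℓp : ℓ ≠ p) : (1 / (p : ℂ)) ∈ lInt ℓ := by
  rw [one_div]
  exact inv_natCast_mem_lInt fun h => hℓp ((Nat.prime_dvd_prime_iff_eq hℓ.out hp.out).mp h)

section Cong

variable {b : ℕ} (hC4 : C4Stmt) (hℓp : ℓ ≠ p) (hdvd : ℓ ^ b ∣ p + 1)
  (hG0 : (qExpansion 1 G).coeff 0 = 1)
  (hGk : ∀ k : ℕ, 1 ≤ k → InPow ℓ b ((qExpansion 1 G).coeff k))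

include hG0 hGk in
theorem coeff_mem (n : ℕ) : (qExpansion 1 G).coeff n ∈ lInt ℓ := by
  rcases Nat.eq_zero_or_pos n with rfl | hn
  · rw [hG0]; exact (lInt ℓ).one_mem
  · exact mem_of_inPow (hGk n hn)

include hC4 hℓp hG0 hGk in
theorem coeff_EG_mem (a : Option (ZMod p)) (m : ℕ) :
    PowerSeries.coeff m (EG G a) ∈ lInt ℓ := by
  cases a with
  | none =>
    simp only [EG, coeff_spread]
    split_ifs
    · exact coeff_mem G hG0 hGk _
    · exact (lInt ℓ).zero_mem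
  | some j =>
    simp only [EG, PowerSeries.coeff_mk]
    rw [hC4 p G m]
    exact (lInt ℓ).mul_mem ((lInt ℓ).mul_mem ((lInt ℓ).neg_mem (inv_p_mem hℓp))
      (coeff_mem G hG0 hGk _)) (zeta_pow_mem _ _)

/-- The expansions of the conjugates, over `O = lInt ℓ`. -/
noncomputable def EG' (a : Option (ZMod p)) : PowerSeries (lInt ℓ) :=
  liftO (lInt ℓ) (EG G a) (coeff_EG_mem G hC4 hℓp hG0 hGk a)

theorem psum_EG' (a : Option (ZMod p)) (τ : ℍ) :
    Fermat.Agent.S24.HasQExp.PSum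
      (PowerSeries.map (lInt ℓ).subtype (EG' G hC4 hℓp hG0 hGk a)) (qN p τ) (conj G a τ) := by
  rw [EG', map_subtype_liftO]
  exact psum_EG G a τ

include hdvd in
/-- All conjugates are `≡ 1 mod ℓ^b`. -/
theorem exists_EG'_eq (a : Option (ZMod p)) :
    ∃ u : PowerSeries (lInt ℓ),
      EG' G hC4 hℓp hG0 hGk a = 1 + PowerSeries.C (((ℓ : ℕ) : lInt ℓ) ^ b) * u := by
  have hp0 : (p : ℂ) ≠ 0 := by exact_mod_cast hp.out.ne_zero
  -- a coefficientwise criterion in `ℂ`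
  have key : ∀ (m : ℕ) (t : ℂ) (y : ℂ), y ∈ lInt ℓ →
      PowerSeries.coeff m (EG G a) = t + (ℓ : ℂ) ^ b * y → (t = 0 ∨ t = 1) →
      ∃ y' : lInt ℓ, PowerSeries.coeff m (EG' G hC4 hℓp hG0 hGk a)
        = (if t = 1 then 1 else 0) + ((ℓ : ℕ) : lInt ℓ) ^ b * y' := by
    intro m t y hy hc ht
    refine ⟨⟨y, hy⟩, Subtype.ext ?_⟩
    rw [EG', coeff_liftO, hc]
    rcases ht with rfl | rfl
    · simp
    · simp
  apply exists_eq_one_add
  · -- constant coefficient
    cases a with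
    | none =>
      obtain ⟨y', hy'⟩ := key 0 1 0 (lInt ℓ).zero_mem (by
        simp only [EG, coeff_spread_zero, hG0]; ring) (Or.inr rfl)
      exact ⟨y', by simpa using hy'⟩
    | some j =>
      obtain ⟨c, hc⟩ := hdvd
      have hcℂ : ((p : ℂ) + 1) = (ℓ : ℂ) ^ b * (c : ℂ) := by exact_mod_cast hc
      obtain ⟨y', hy'⟩ := key 0 1 (-((c : ℂ)) * (1 / (p : ℂ)))
        ((lInt ℓ).mul_mem ((lInt ℓ).neg_mem (natCast_mem _ c)) (inv_p_mem hℓp)) (by
        simp only [EG, PowerSeries.coeff_mk, pow_zero, mul_one]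
        rw [hC4 p G 0, mul_zero, hG0]
        field_simp
        linear_combination (-1 : ℂ) * hcℂ) (Or.inr rfl)
      exact ⟨y', by simpa using hy'⟩
  · intro m hm
    cases a with
    | none =>
      by_cases hpm : p ∣ m
      · obtain ⟨n, rfl⟩ := hpm
        have hn : 1 ≤ n := by
          rcases Nat.eq_zero_or_pos n with rfl | h
          · simp at hm
          · exact h
        obtain ⟨y, hy, hxy⟩ := exists_of_inPow (hGk n hn)
        obtain ⟨y', hy'⟩ := key (p * n) 0 y hy (by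
          simp only [EG]
          rw [coeff_spread_mul hp.out.pos, hxy]; ring) (Or.inl rfl)
        exact ⟨y', by simpa using hy'⟩
      · obtain ⟨y', hy'⟩ := key m 0 0 (lInt ℓ).zero_mem (by
          simp only [EG]
          rw [coeff_spread_of_not_dvd _ hpm]; ring) (Or.inl rfl)
        exact ⟨y', by simpa using hy'⟩
    | some j =>
      have hpm : 1 ≤ p * m := Nat.mul_pos hp.out.pos hm
      obtain ⟨y, hy, hxy⟩ := exists_of_inPow (hGk (p * m) hpm)
      obtain ⟨y', hy'⟩ := key m 0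
        (-(1 / (p : ℂ)) * y * (zeta p ^ ((j.val : ℕ) : ℤ)) ^ m)
        ((lInt ℓ).mul_mem ((lInt ℓ).mul_mem ((lInt ℓ).neg_mem (inv_p_mem hℓp)) hy)
          (zeta_pow_mem _ _)) (by
        simp only [EG, PowerSeries.coeff_mk]
        rw [hC4 p G m, hxy]; ring) (Or.inl rfl)
      exact ⟨y', by simpa using hy'⟩

end Cong

end Fermat.Agent.S16.NormP51
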