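/-
S16 / (U)-NORMP (helper51): level-one forms with integral `q`-expansion, expanded in `q^(1/p)`;
the series `E₄ = 1 + 240 s₃`, `E₆ = 1 - 504 s₅`.
-/
import Fermat.Agent.S16.NormP51.Spread
import Fermat.Agent.S16.MillerSturm46

set_option autoImplicit false

open UpperHalfPlane ModularForm CongruenceSubgroup ModularGroup Function
open scoped MatrixGroups ModularForm Manifold

namespace Fermat.Agent.S16.NormP51

open Fermat.Agent.S24.HasQExp ModularFormClass ModularCurve

/-- `spread` commutes with `1 + c • _`. -/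
theorem spread_one_add_C_mul {R : Type*} [CommRing R] {p : ℕ} (hp : 0 < p) (c : R)
    (g : PowerSeries R) :
    spread p (1 + PowerSeries.C c * g) = 1 + PowerSeries.C c * spread p g := by
  ext m
  simp only [coeff_spread, map_add, PowerSeries.coeff_C_mul, PowerSeries.coeff_one]
  by_cases hm : p ∣ m
  · rw [if_pos hm, if_pos hm]
    obtain ⟨n, rfl⟩ := hm
    rw [Nat.mul_div_cancel_left n hp]
    have : p * n = 0 ↔ n = 0 := by
      constructor
      · intro h
        rcases Nat.mul_eq_zero.mp h with h | h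
        · omega
        · exact h
      · rintro rfl; simp
    simp only [this]
  · rw [if_neg hm, if_neg hm]
    have : m ≠ 0 := by rintro rfl; exact hm (dvd_zero p)
    simp [this]

/-- The `q^(1/p)`-expansion of a level-one form with integral `q`-expansion `g`. -/
theorem psum_levelOne {k : ℤ} (F : ModularForm 𝒮ℒ k) (g : PowerSeries ℤ)
    (hg : qExpansion 1 F = g.map (Int.castRingHom ℂ)) {p : ℕ} (hp : 0 < p) (τ : ℍ) :
    Fermat.Agent.S24.HasQExp.PSum (spread p (g.map (Int.castRingHom ℂ))) (qN p τ) (F τ) := by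
  refine psum_spread hp ?_
  have h1 := ModularForm.hasSum_qExpansion (f := F) one_pos one_mem_strictPeriods_SL τ
  have h2 : qN p τ ^ p = Periodic.qParam 1 τ := by
    have hp' : (p : ℂ) ≠ 0 := by exact_mod_cast hp.ne'
    unfold qN Periodic.qParam
    rw [← Complex.exp_nat_mul]
    congr 1
    push_cast
    field_simp
  rw [h2, ← hg]
  exact h1

theorem map_subtype_spread_int (O : Subring ℂ) (p : ℕ) (g : PowerSeries ℤ) :
    PowerSeries.map O.subtype (spread p (g.map (Int.castRingHom O)))
      = spread p (g.map (Int.castRingHom ℂ)) := by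
  rw [map_spread]
  congr 1

theorem map_map_int {A B : Type*} [CommRing A] [CommRing B] (φ : A →+* B) (g : PowerSeries ℤ) :
    PowerSeries.map φ (g.map (Int.castRingHom A)) = g.map (Int.castRingHom B) := by
  ext m
  simp

theorem map_spread_int {A B : Type*} [CommRing A] [CommRing B] (φ : A →+* B) (p : ℕ)
    (g : PowerSeries ℤ) :
    PowerSeries.map φ (spread p (g.map (Int.castRingHom A)))
      = spread p (g.map (Int.castRingHom B)) := by
  rw [map_spread, map_map_int]

/-- `(n : A⟦X⟧) = 0` as soon as `(n : A) = 0`. -/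
theorem natCast_powerSeries_eq_zero {A : Type*} [CommRing A] {n : ℕ} (h : (n : A) = 0) :
    (n : PowerSeries A) = 0 := by
  rw [← map_natCast (PowerSeries.C (R := A)), h, map_zero]

/-- `∑_{n ≥ 1} σ_k(n) Xⁿ`. -/
def sigSeries (k : ℕ) : PowerSeries ℤ :=
  PowerSeries.mk fun n => if n = 0 then 0 else ∑ d ∈ n.divisors, (d : ℤ) ^ k

theorem coeff_sigSeries_zero (k : ℕ) : PowerSeries.coeff 0 (sigSeries k) = 0 := by
  simp [sigSeries]

theorem coeff_sigSeries_one (k : ℕ) : PowerSeries.coeff 1 (sigSeries k) = 1 := by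
  simp [sigSeries]

theorem eisenstein4_eq : eisenstein4 = 1 + PowerSeries.C 240 * sigSeries 3 := by
  ext n
  simp only [eisenstein4, sigSeries, PowerSeries.coeff_mk, map_add, PowerSeries.coeff_one,
    PowerSeries.coeff_C_mul]
  split_ifs <;> simp

theorem eisenstein6_eq :
    MillerSturm46.eisenstein6 = 1 + PowerSeries.C (-504) * sigSeries 5 := by
  ext n
  simp only [MillerSturm46.eisenstein6, sigSeries, PowerSeries.coeff_mk, map_add,
    PowerSeries.coeff_one, PowerSeries.coeff_C_mul]
  split_ifs <;> simp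

/-- `σ₃ ≡ σ₅ mod 2` and friends: `d^a ≡ d^b mod ℓ` when `a ≡ b mod ℓ - 1`; here only the
coefficientwise parity statement needed for `ℓ = 2`. -/
theorem sigSeries_three_add_five :
    ∃ t : PowerSeries ℤ, sigSeries 3 + sigSeries 5 = PowerSeries.C 2 * t := by
  have h : ∀ n : ℕ, ∃ y : ℤ, PowerSeries.coeff n (sigSeries 3 + sigSeries 5) = 2 * y := by
    intro n
    simp only [sigSeries, map_add, PowerSeries.coeff_mk]
    split_ifs
    · exact ⟨0, by simp⟩
    · rw [← Finset.sum_add_distrib]
      have : (2 : ℤ) ∣ ∑ d ∈ n.divisors, ((d : ℤ) ^ 3 + (d : ℤ) ^ 5) := by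
        apply Finset.dvd_sum
        intro d _
        obtain ⟨r, hr⟩ := Int.even_mul_succ_self (d : ℤ)
        refine ⟨r * ((d : ℤ) ^ 3 - (d : ℤ) ^ 2 + 2 * (d : ℤ) - 2) + (d : ℤ), ?_⟩
        have h1 : ((d : ℤ) ^ 3 + (d : ℤ) ^ 5)
            = ((d : ℤ) * ((d : ℤ) + 1)) * ((d : ℤ) ^ 3 - (d : ℤ) ^ 2 + 2 * (d : ℤ) - 2)
              + 2 * (d : ℤ) := by ring
        rw [h1, hr]
        ring
      obtain ⟨y, hy⟩ := this
      exact ⟨y, hy⟩
  choose y hy using h
  exact ⟨PowerSeries.mk y, by ext n; rw [hy n, PowerSeries.coeff_C_mul, PowerSeries.coeff_mk]⟩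

end Fermat.Agent.S16.NormP51
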