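/-
S16 / (U)-NORMP (helper51): the quotient `lInt ℓ ⧸ (ℓ)` is nontrivial; small helpers.
-/
import Fermat.Agent.S16.NormP51.LInt
import Fermat.Agent.S16.NormP51.Spread

set_option autoImplicit false

namespace Fermat.Agent.S16.NormP51

open Fermat.Agent.S24.HasQExp

variable {ℓ : ℕ} [hℓ : Fact ℓ.Prime]

theorem span_natCast_ne_top : Ideal.span {((ℓ : ℕ) : lInt ℓ)} ≠ ⊤ := by
  intro h
  rw [Ideal.span_singleton_eq_top] at h
  obtain ⟨y, hy⟩ := h.exists_right_inv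
  have : (ℓ : ℂ) * (y : ℂ) = 1 := by
    have := congrArg (Subtype.val) hy
    simpa using this
  exact natCast_mul_ne_one y.2 this

instance quot_nontrivial : Nontrivial (lInt ℓ ⧸ Ideal.span {((ℓ : ℕ) : lInt ℓ)}) :=
  Ideal.Quotient.nontrivial_iff.mpr span_natCast_ne_top

theorem mk_natCast_eq_zero :
    Ideal.Quotient.mk (Ideal.span {((ℓ : ℕ) : lInt ℓ)}) ((ℓ : ℕ) : lInt ℓ) = 0 :=
  Ideal.Quotient.eq_zero_iff_mem.mpr (Ideal.mem_span_singleton_self _)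

/-- In the quotient, `(ℓ : R) = 0`. -/
theorem quot_natCast_eq_zero :
    ((ℓ : ℕ) : lInt ℓ ⧸ Ideal.span {((ℓ : ℕ) : lInt ℓ)}) = 0 := by
  have := mk_natCast_eq_zero (ℓ := ℓ)
  rwa [map_natCast] at this

/-- Dividing a convergent expansion by a nonzero constant. -/
theorem psum_of_eq_C_mul {c : ℂ} (hc : c ≠ 0) {M R : PowerSeries ℂ} {q v : ℂ}
    (h : R = PowerSeries.C c * M) (hR : Fermat.Agent.S24.HasQExp.PSum R q v) :
    Fermat.Agent.S24.HasQExp.PSum M q (c⁻¹ * v) := by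
  have h1 := (Fermat.Agent.S24.HasQExp.PSum.C c⁻¹ q).mul hR
  have h2 : PowerSeries.C c⁻¹ * R = M := by
    rw [h, ← mul_assoc, ← map_mul, inv_mul_cancel₀ hc, map_one, one_mul]
  rwa [h2] at h1

/-- A unit modulo `ℓ`: an integer `c` prime to `ℓ` has nonzero powers in the quotient. -/
theorem intCast_pow_ne_zero {c : ℤ} (hc : IsCoprime c (ℓ : ℤ)) (n : ℕ) :
    ((c : lInt ℓ ⧸ Ideal.span {((ℓ : ℕ) : lInt ℓ)})) ^ n ≠ 0 := by
  obtain ⟨a, b, hab⟩ := hc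
  have h1 : ((a : lInt ℓ ⧸ Ideal.span {((ℓ : ℕ) : lInt ℓ)})) * (c : _) = 1 := by
    have := congrArg (Int.cast : ℤ → lInt ℓ ⧸ Ideal.span {((ℓ : ℕ) : lInt ℓ)}) hab
    push_cast at this
    rw [quot_natCast_eq_zero, mul_zero, add_zero] at this
    exact this
  have hu : IsUnit ((c : lInt ℓ ⧸ Ideal.span {((ℓ : ℕ) : lInt ℓ)})) :=
    IsUnit.of_mul_eq_one_right _ h1
  exact (hu.pow n).ne_zero

end Fermat.Agent.S16.NormP51
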