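/-
S16 / (U)-NORMP (helper51): `U9Stmt` — no `G ∈ M₂(Γ₀(p))` is `≡ 1 mod 9` when `9 ∣ p + 1`.

`ψ(G) = (G² - E₄)/3 ∈ M₄(Γ₀(p))`: for every series `G' = 1 + 9u`, `(G'² - E₄)/3 = 6u + 27u² - 80 s₃
≡ s₃ mod 3` (`E₄ = 1 + 240 s₃`), a fixed series of `q`-order `1`.  Norm step.
-/
import Fermat.Agent.S16.NormP51.Core
import Fermat.Agent.S16.NormP51.ExpG
import Fermat.Agent.S16.NormP51.LevelOne
import Fermat.Agent.S16.NormP51.Quot

set_option autoImplicit false

open UpperHalfPlane ModularForm CongruenceSubgroup ModularGroup Function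
open scoped MatrixGroups ModularForm Manifold

namespace Fermat.Agent.S16.NormP51

open Fermat.Agent.S24.HasQExp Fermat.Agent.S16.Conj53 ModularFormClass ModularCurve
open Fermat.Agent.S16.UIface39 EisensteinSeries

variable {p : ℕ} [hp : Fact p.Prime]

/-- `ψ(G) = (G² - E₄)/3`. -/
noncomputable def psi3 (G : ModularForm (Gamma0 p) 2) : ModularForm (Gamma0 p) 4 :=
  (1 / 3 : ℂ) • (ModularForm.mcast (by norm_num : (2 : ℤ) + 2 = 4) (G.mul G) - resLevel p E₄)

theorem coe_psi3 (G : ModularForm (Gamma0 p) 2) :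
    (psi3 G : ℍ → ℂ) = (1 / 3 : ℂ) • ((G : ℍ → ℂ) * (G : ℍ → ℂ) - (E₄ : ℍ → ℂ)) := rfl

theorem conj_psi3 (G : ModularForm (Gamma0 p) 2) (a : Option (ZMod p)) (τ : ℍ) :
    conj (psi3 G) a τ = (3 : ℂ)⁻¹ * (conj G a τ * conj G a τ - E₄ τ) := by
  have h4 : cjFun (4 : ℤ) ((G : ℍ → ℂ) * (G : ℍ → ℂ)) a
      = cjFun 2 (G : ℍ → ℂ) a * cjFun 2 (G : ℍ → ℂ) a := by
    have := cjFun_mul 2 2 (G : ℍ → ℂ) (G : ℍ → ℂ) a
    norm_num at this
    exact this
  rw [conj_eq_cjFun, coe_psi3, cjFun_smul, cjFun_sub, h4, cjFun_levelOne, conj_eq_cjFun]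
  simp [Pi.smul_apply, smul_eq_mul]

theorem u9_of (hC4 : C4Stmt) : U9Stmt := by
  intro p hpp hp5 h9 G hG0 hGk
  haveI : Fact p.Prime := ⟨hpp⟩
  haveI : Fact (Nat.Prime 3) := ⟨Nat.prime_three⟩
  have hℓp : 3 ≠ p := by omega
  have hdvd : 3 ^ 2 ∣ p + 1 := by norm_num; exact h9
  have hG0' : (qExpansion 1 G).coeff 0 = 1 := hG0
  have hGk' : ∀ k : ℕ, 1 ≤ k → InPow 3 2 ((qExpansion 1 G).coeff k) := hGk
  have hp0 : 0 < p := hpp.pos
  choose u hu using exists_EG'_eq G hC4 hℓp hdvd hG0' hGk'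
  refine false_of_norm (w := 4) (by norm_num) (by norm_num) (psi3 G) (lInt 3) 3
    (fun a => PowerSeries.C 6 * u a + PowerSeries.C 27 * u a ^ 2
      - PowerSeries.C 80 * spread p ((sigSeries 3).map (Int.castRingHom (lInt 3)))) ?_
    (spread p ((sigSeries 3).map
      (Int.castRingHom (lInt 3 ⧸ Ideal.span {((3 : ℕ) : lInt 3)})))) ?_ ?_ ?_
  · -- expansions
    intro a τ
    rw [conj_psi3]
    have h1 := psum_EG' G hC4 hℓp hG0' hGk' a τ
    have h4 := psum_levelOne E₄ eisenstein4 MillerSturm46.qExpansion_E4_eq hp0 τ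
    refine psum_of_eq_C_mul (c := 3) (by norm_num) ?_ ((h1.mul h1).sub h4)
    rw [hu a, eisenstein4_eq]
    have h5 : spread p ((1 + PowerSeries.C 240 * sigSeries 3).map (Int.castRingHom ℂ))
        = 1 + PowerSeries.C 240 * spread p ((sigSeries 3).map (Int.castRingHom ℂ)) := by
      rw [map_add, map_mul, map_one, PowerSeries.map_C, ← spread_one_add_C_mul hp0]
      simp
    rw [h5]
    simp only [map_add, map_sub, map_mul, map_pow, map_one, PowerSeries.map_C, map_ofNat,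
      map_natCast, Nat.cast_ofNat, map_subtype_spread_int]
    ring
  · -- reduction modulo 3
    intro a
    have h3 : (3 : PowerSeries (lInt 3 ⧸ Ideal.span {((3 : ℕ) : lInt 3)})) = 0 := by
      have := natCast_powerSeries_eq_zero (quot_natCast_eq_zero (ℓ := 3))
      exact_mod_cast this
    simp only [map_add, map_sub, map_mul, map_pow, PowerSeries.map_C, map_ofNat, map_spread_int]
    linear_combination (2 * PowerSeries.map
        (Ideal.Quotient.mk (Ideal.span {((3 : ℕ) : lInt 3)})) (u a)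
      + 9 * (PowerSeries.map (Ideal.Quotient.mk (Ideal.span {((3 : ℕ) : lInt 3)})) (u a)) ^ 2
      - 27 * spread p ((sigSeries 3).map
          (Int.castRingHom (lInt 3 ⧸ Ideal.span {((3 : ℕ) : lInt 3)})))) * h3
  · -- low coefficients
    intro m hm
    rcases Nat.eq_zero_or_pos m with rfl | hm0
    · rw [coeff_spread_zero, PowerSeries.coeff_map, coeff_sigSeries_zero, map_zero]
    · exact coeff_spread_of_lt _ hm0 hm
  · -- the leading coefficient
    rw [coeff_spread_self hp0, PowerSeries.coeff_map, coeff_sigSeries_one, map_one, one_pow]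
    exact one_ne_zero

end Fermat.Agent.S16.NormP51
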