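/-
S16 / (U)-NORMP (helper51): `U9Stmt` of `UIface39`, unconditionally
(helper53's `Conj53.bS_weight_two` discharges `C4Stmt`).
-/
import Fermat.Agent.S16.NormP51.U9
import Fermat.Agent.S16.Conj53.WeightTwo

set_option autoImplicit false

namespace Fermat.Agent.S16.NormP51

open Fermat.Agent.S16.Conj53 Fermat.Agent.S16.UIface39

theorem c4 : C4Stmt := by
  intro p _ G m
  rw [bS_weight_two, one_div]

/-- **(U4) of `UIface39`**: no `G ≡ 1 mod 9` on `Γ₀(p)` when `9 ∣ p + 1`. -/
theorem u9 : U9Stmt := u9_of c4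

end Fermat.Agent.S16.NormP51
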