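/-
S16 / (U)-NORMP (helper51): `USwDStmt` — for a prime `ℓ ≥ 5`, `ℓ ≠ p`, `ℓ ∣ p + 1`, no
`G ∈ M₂(Γ₀(p))` is `≡ 1 mod ℓ`.

`ℓ ≥ 7`: `ψ(G) = G² - E₄ ≡ 1 - E₄ = -240 q + ⋯ mod ℓ`;  `ℓ = 5`: `ψ(G) = G³ - E₆ ≡ 1 - E₆ = 504 q + ⋯`.
Norm step (no Swinnerton-Dyer needed).
-/
import Fermat.Agent.S16.NormP51.Core
import Fermat.Agent.S16.NormP51.ExpG
import Fermat.Agent.S16.NormP51.LevelOne
import Fermat.Agent.S16.NormP51.Quot
import Fermat.Agent.S16.Conj53.WeightTwo

set_option autoImplicit false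

open UpperHalfPlane ModularForm CongruenceSubgroup ModularGroup Function
open scoped MatrixGroups ModularForm Manifold

namespace Fermat.Agent.S16.NormP51

open Fermat.Agent.S24.HasQExp Fermat.Agent.S16.Conj53 ModularFormClass ModularCurve
open Fermat.Agent.S16.UIface39 EisensteinSeries

/-- helper53's `Conj53.bS_weight_two` is `C4Stmt`. -/
theorem c4' : C4Stmt := by
  intro p _ G m
  rw [bS_weight_two, one_div]

variable {p : ℕ} [hp : Fact p.Prime]

/-- `ψ(G) = G² - E₄`. -/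
noncomputable def psi4 (G : ModularForm (Gamma0 p) 2) : ModularForm (Gamma0 p) 4 :=
  ModularForm.mcast (by norm_num : (2 : ℤ) + 2 = 4) (G.mul G) - resLevel p E₄

theorem coe_psi4 (G : ModularForm (Gamma0 p) 2) :
    (psi4 G : ℍ → ℂ) = (G : ℍ → ℂ) * (G : ℍ → ℂ) - (E₄ : ℍ → ℂ) := rfl

theorem conj_psi4 (G : ModularForm (Gamma0 p) 2) (a : Option (ZMod p)) (τ : ℍ) :
    conj (psi4 G) a τ = conj G a τ * conj G a τ - E₄ τ := by
  have h4 : cjFun (4 : ℤ) ((G : ℍ → ℂ) * (G : ℍ → ℂ)) a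
      = cjFun 2 (G : ℍ → ℂ) a * cjFun 2 (G : ℍ → ℂ) a := by
    have := cjFun_mul 2 2 (G : ℍ → ℂ) (G : ℍ → ℂ) a
    norm_num at this
    exact this
  rw [conj_eq_cjFun, coe_psi4, cjFun_sub, h4, cjFun_levelOne, conj_eq_cjFun]
  rfl

/-- `ψ(G) = G³ - E₆`. -/
noncomputable def psi6 (G : ModularForm (Gamma0 p) 2) : ModularForm (Gamma0 p) 6 :=
  ModularForm.mcast (by norm_num : (2 : ℤ) + 2 + 2 = 6) ((G.mul G).mul G) - resLevel p E₆

theorem coe_psi6 (G : ModularForm (Gamma0 p) 2) :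
    (psi6 G : ℍ → ℂ) = (G : ℍ → ℂ) * (G : ℍ → ℂ) * (G : ℍ → ℂ) - (E₆ : ℍ → ℂ) := rfl

theorem conj_psi6 (G : ModularForm (Gamma0 p) 2) (a : Option (ZMod p)) (τ : ℍ) :
    conj (psi6 G) a τ = conj G a τ * conj G a τ * conj G a τ - E₆ τ := by
  have h6 : cjFun (6 : ℤ) ((G : ℍ → ℂ) * (G : ℍ → ℂ) * (G : ℍ → ℂ)) a
      = cjFun 2 (G : ℍ → ℂ) a * cjFun 2 (G : ℍ → ℂ) a * cjFun 2 (G : ℍ → ℂ) a := by
    have h1 := cjFun_mul (2 + 2) 2 ((G : ℍ → ℂ) * (G : ℍ → ℂ)) (G : ℍ → ℂ) a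
    rw [cjFun_mul 2 2] at h1
    norm_num at h1
    exact h1
  rw [conj_eq_cjFun, coe_psi6, cjFun_sub, h6, cjFun_levelOne, conj_eq_cjFun]
  rfl

theorem coeff_one_eisenstein4 : PowerSeries.coeff 1 eisenstein4 = 240 := by
  simp [eisenstein4]

theorem coeff_zero_eisenstein4 : PowerSeries.coeff 0 eisenstein4 = 1 := by
  simp [eisenstein4]

theorem coeff_one_eisenstein6 : PowerSeries.coeff 1 MillerSturm46.eisenstein6 = -504 := by
  simp [MillerSturm46.eisenstein6]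

theorem coeff_zero_eisenstein6 : PowerSeries.coeff 0 MillerSturm46.eisenstein6 = 1 := by
  simp [MillerSturm46.eisenstein6]

/-- Coefficients of `1 - g(X^p)` for an integral series `g` with constant term `1`. -/
theorem coeff_one_sub_spread {A : Type*} [CommRing A] {p : ℕ} (hp0 : 0 < p) (g : PowerSeries ℤ)
    (hg0 : PowerSeries.coeff 0 g = 1) :
    (∀ m < p, PowerSeries.coeff m (1 - spread p (g.map (Int.castRingHom A))) = 0) ∧
      PowerSeries.coeff p (1 - spread p (g.map (Int.castRingHom A)))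
        = ((-(PowerSeries.coeff 1 g) : ℤ) : A) := by
  refine ⟨fun m hm => ?_, ?_⟩
  · rcases Nat.eq_zero_or_pos m with rfl | hm0
    · rw [map_sub, coeff_spread_zero, PowerSeries.coeff_map, hg0]
      simp
    · rw [map_sub, coeff_spread_of_lt _ hm0 hm, PowerSeries.coeff_one, if_neg hm0.ne', sub_zero]
  · rw [map_sub, coeff_spread_self hp0, PowerSeries.coeff_map, PowerSeries.coeff_one,
      if_neg hp0.ne']
    simp

/-- The common part of the two cases: the conjugates reduce to `1` modulo `ℓ`. -/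
theorem map_EG'_eq_one {ℓ : ℕ} [Fact ℓ.Prime] {E : PowerSeries (lInt ℓ)}
    {u : PowerSeries (lInt ℓ)} (hE : E = 1 + PowerSeries.C (((ℓ : ℕ) : lInt ℓ) ^ 1) * u) :
    PowerSeries.map (Ideal.Quotient.mk (Ideal.span {((ℓ : ℕ) : lInt ℓ)})) E = 1 := by
  rw [hE, map_add, map_mul, map_one, PowerSeries.map_C, pow_one, mk_natCast_eq_zero, map_zero,
    zero_mul, add_zero]

theorem not_dvd_240 {ℓ : ℕ} (hℓ : ℓ.Prime) (h7 : 7 ≤ ℓ) : ¬ ℓ ∣ 240 := by
  intro h
  have h240 : (240 : ℕ) = 2 ^ 4 * 3 * 5 := by norm_num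
  rw [h240] at h
  rcases (hℓ.dvd_mul).mp h with h | h
  · rcases (hℓ.dvd_mul).mp h with h | h
    · have := Nat.le_of_dvd (by norm_num) (hℓ.dvd_of_dvd_pow h)
      omega
    · have := Nat.le_of_dvd (by norm_num) h
      omega
  · have := Nat.le_of_dvd (by norm_num) h
    omega

theorem uSwD : USwDStmt := by
  intro p ℓ hpp hp5 hℓ' hℓ5 hℓp hdvd1 G hG0 hGk
  haveI : Fact p.Prime := ⟨hpp⟩
  haveI : Fact ℓ.Prime := ⟨hℓ'⟩
  have hdvd : ℓ ^ 1 ∣ p + 1 := by rwa [pow_one]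
  have hG0' : (qExpansion 1 G).coeff 0 = 1 := hG0
  have hGk' : ∀ k : ℕ, 1 ≤ k → InPow ℓ 1 ((qExpansion 1 G).coeff k) := hGk
  have hp0 : 0 < p := hpp.pos
  choose u hu using exists_EG'_eq G c4' hℓp hdvd hG0' hGk'
  by_cases h5 : ℓ = 5
  · -- `ℓ = 5`: `G³ - E₆`
    obtain ⟨hlow, htop⟩ := coeff_one_sub_spread
      (A := lInt ℓ ⧸ Ideal.span {((ℓ : ℕ) : lInt ℓ)}) hp0 MillerSturm46.eisenstein6
      coeff_zero_eisenstein6
    refine false_of_norm (w := 6) (by norm_num) (by norm_num) (psi6 G) (lInt ℓ) ℓ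
      (fun a => EG' G c4' hℓp hG0' hGk' a * EG' G c4' hℓp hG0' hGk' a
          * EG' G c4' hℓp hG0' hGk' a
        - spread p (MillerSturm46.eisenstein6.map (Int.castRingHom (lInt ℓ)))) ?_
      (1 - spread p (MillerSturm46.eisenstein6.map
        (Int.castRingHom (lInt ℓ ⧸ Ideal.span {((ℓ : ℕ) : lInt ℓ)})))) ?_ hlow ?_
    · intro a τ
      rw [conj_psi6]
      have h1 := psum_EG' G c4' hℓp hG0' hGk' a τ
      have h6 := psum_levelOne E₆ MillerSturm46.eisenstein6 MillerSturm46.qExpansion_E6_eq hp0 τ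
      have := ((h1.mul h1).mul h1).sub h6
      simpa only [map_sub, map_mul, map_subtype_spread_int] using this
    · intro a
      rw [map_sub, map_mul, map_mul, map_EG'_eq_one (hu a), map_spread_int]
      ring
    · rw [htop, coeff_one_eisenstein6]
      refine intCast_pow_ne_zero ?_ _
      subst h5
      norm_num
  · -- `ℓ ≥ 7`: `G² - E₄`
    have h7 : 7 ≤ ℓ := by
      rcases Nat.lt_or_ge ℓ 7 with h | h
      · exfalso
        interval_cases ℓ
        · exact h5 rfl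
        · exact absurd hℓ' (by norm_num)
      · exact h
    obtain ⟨hlow, htop⟩ := coeff_one_sub_spread
      (A := lInt ℓ ⧸ Ideal.span {((ℓ : ℕ) : lInt ℓ)}) hp0 eisenstein4 coeff_zero_eisenstein4
    refine false_of_norm (w := 4) (by norm_num) (by norm_num) (psi4 G) (lInt ℓ) ℓ
      (fun a => EG' G c4' hℓp hG0' hGk' a * EG' G c4' hℓp hG0' hGk' a
        - spread p (eisenstein4.map (Int.castRingHom (lInt ℓ)))) ?_
      (1 - spread p (eisenstein4.map
        (Int.castRingHom (lInt ℓ ⧸ Ideal.span {((ℓ : ℕ) : lInt ℓ)})))) ?_ hlow ?_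
    · intro a τ
      rw [conj_psi4]
      have h1 := psum_EG' G c4' hℓp hG0' hGk' a τ
      have h4 := psum_levelOne E₄ eisenstein4 MillerSturm46.qExpansion_E4_eq hp0 τ
      have := (h1.mul h1).sub h4
      simpa only [map_sub, map_mul, map_subtype_spread_int] using this
    · intro a
      rw [map_sub, map_mul, map_EG'_eq_one (hu a), map_spread_int]
      ring
    · rw [htop, coeff_one_eisenstein4]
      refine intCast_pow_ne_zero ?_ _
      have hcop : Nat.Coprime 240 ℓ :=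
        (Nat.Coprime.symm ((Nat.Prime.coprime_iff_not_dvd hℓ').mpr (not_dvd_240 hℓ' h7)))
      have : IsCoprime (240 : ℤ) (ℓ : ℤ) := by
        have := Nat.isCoprime_iff_coprime.mpr hcop
        exact_mod_cast this
      exact this.neg_left

end Fermat.Agent.S16.NormP51
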